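import Fermat.Agent.QuadraticRH.Roots

/-!
# Extremal quadratic L-functions

Over the field with `q ^ 2` elements the values of `X ^ q + X` lie in the subfield with `q`
elements, all of whose elements are squares; a twist makes all values non-squares.
-/

set_option autoImplicit false
set_option linter.style.openClassical false
set_option linter.style.haveILetI false
set_option linter.unusedSectionVars false

noncomputable section

open scoped Classical

namespace FA.ExtremalFF

open Polynomial QuadraticLFF QuadraticRH HyperellipticWeil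

variable {k : Type*} [Field k] [Fintype k] {g : ℕ}

/-- The polynomial `X ^ (2 g + 1) + c ^ (2 g) X`. -/
def extPoly (g : ℕ) (c : k) : k[X] := X ^ (2 * g + 1) + C (c ^ (2 * g)) * X

theorem eq_of_norm_eq_of_sum_eq {s : Multiset ℂ} {R : ℝ} {w : ℂ} (hw : ‖w‖ = 1)
    (hs : ∀ a ∈ s, ‖a‖ = R) (hsum : (w * s.sum).re = Multiset.card s * R) :
    ∀ a ∈ s, w * a = R := by
  intro a ha
  have hn : ‖w * a‖ = R := by rw [norm_mul, hw, one_mul, hs a ha]
  obtain ⟨t, rfl⟩ := Multiset.exists_cons_of_mem ha
  have h1 : (w * t.sum).re ≤ Multiset.card t * R := by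
    refine (Complex.re_le_norm _).trans ?_
    rw [norm_mul, hw, one_mul]
    refine (norm_multiset_sum_le _).trans ((Multiset.sum_le_card_nsmul _ R fun x hx => ?_).trans ?_)
    · obtain ⟨b, hb, rfl⟩ := Multiset.mem_map.mp hx
      exact (hs b (Multiset.mem_cons_of_mem hb)).le
    · rw [Multiset.card_map, nsmul_eq_mul]
  rw [Multiset.sum_cons, mul_add, Complex.add_re, Multiset.card_cons, Nat.cast_succ] at hsum
  have hre : (w * a).re = R := le_antisymm ((Complex.re_le_norm _).trans hn.le) (by nlinarith)
  have him : (w * a).im = 0 := by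
    have h := Complex.sq_norm (w * a)
    rw [hn, Complex.normSq_apply, hre] at h
    nlinarith
  exact Complex.ext (by simpa using hre) (by simpa using him)

variable (hq : Fintype.card k = (2 * g + 1) ^ 2)
include hq

theorem ringChar_ne_two : ringChar k ≠ 2 := fun h => by
  have h2 := FiniteField.even_card_of_char_two h
  rw [hq] at h2
  have : (2 * g + 1) ^ 2 % 2 = 1 := by simp [Nat.pow_mod]
  omega

theorem one_le_genus : 1 ≤ g := by
  have h := Fintype.one_lt_card (α := k)
  rw [hq] at h
  by_contra h0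
  simp [show g = 0 by omega] at h

theorem exists_prime_pow : ∃ m, 2 * g + 1 = ringChar k ^ m := by
  obtain ⟨n, hp, hn⟩ := FiniteField.card k (ringChar k)
  have hdvd : 2 * g + 1 ∣ ringChar k ^ (n : ℕ) := ⟨2 * g + 1, by rw [← hn, hq, sq]⟩
  obtain ⟨m, -, hm⟩ := (Nat.dvd_prime_pow hp).mp hdvd
  exact ⟨m, hm⟩

theorem add_pow_root (x y : k) :
    (x + y) ^ (2 * g + 1) = x ^ (2 * g + 1) + y ^ (2 * g + 1) := by
  obtain ⟨m, hm⟩ := exists_prime_pow hq
  haveI : Fact (ringChar k).Prime := ⟨CharP.char_is_prime k _⟩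
  rw [hm, add_pow_char_pow]

theorem cast_root_eq_zero : ((2 * g + 1 : ℕ) : k) = 0 := by
  obtain ⟨m, hm⟩ := exists_prime_pow hq
  rcases m with _ | m
  · have := one_le_genus hq
    simp at hm
    omega
  rw [hm, Nat.cast_pow, CharP.cast_eq_zero, zero_pow m.succ_ne_zero]

theorem monic_extPoly (c : k) : (extPoly g c).Monic := by
  refine monic_X_pow_add (degree_C_mul_X_le _ |>.trans_lt ?_)
  exact_mod_cast (show 1 < 2 * g + 1 by have := one_le_genus hq; omega)

theorem natDegree_extPoly (c : k) : (extPoly g c).natDegree = 2 * g + 1 := by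
  rw [extPoly, natDegree_add_eq_left_of_natDegree_lt, natDegree_X_pow]
  have := one_le_genus hq
  rw [natDegree_X_pow]
  exact (natDegree_C_mul_le _ _).trans_lt (by rw [natDegree_X]; omega)

theorem squarefree_extPoly {c : k} (hc : c ≠ 0) : Squarefree (extPoly g c) := by
  refine Separable.squarefree ?_
  rw [separable_def, extPoly, derivative_add, derivative_X_pow, derivative_C_mul, derivative_X,
    cast_root_eq_zero hq, map_zero, zero_mul, zero_add, mul_one]
  exact ⟨0, C (c ^ (2 * g))⁻¹, by
    rw [zero_mul, zero_add, ← C_mul, inv_mul_cancel₀ (pow_ne_zero _ hc), C_1]⟩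

/-- The values are `c ^ (2 g + 1)` times squares. -/
theorem quadraticChar_eval {c : k} (hc : c ≠ 0) {x : k} (hx : (extPoly g c).eval x ≠ 0) :
    quadraticChar k ((extPoly g c).eval x) = quadraticChar k c := by
  have hk := ringChar_ne_two hq
  set y := x / c
  have hxy : x = c * y := by simp only [y]; field_simp
  have he : (extPoly g c).eval x = c ^ (2 * g + 1) * (y ^ (2 * g + 1) + y) := by
    simp only [extPoly, eval_add, eval_pow, eval_X, eval_mul, eval_C]
    rw [hxy]
    ring
  set t := y ^ (2 * g + 1) + y with ht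
  have ht0 : t ≠ 0 := fun h => hx (by rw [he, h, mul_zero])
  have hfix : t ^ (2 * g + 1) = t := by
    rw [ht, add_pow_root hq, ← pow_mul, ← sq, ← hq, FiniteField.pow_card, add_comm]
  have h2g : t ^ (2 * g) = 1 := mul_right_cancel₀ ht0 (by rw [← pow_succ, hfix, one_mul])
  have ht1 : quadraticChar k t = 1 := by
    rw [quadraticChar_one_iff_isSquare ht0, FiniteField.isSquare_iff hk ht0, hq,
      show (2 * g + 1) ^ 2 / 2 = 2 * g * (g + 1) by
        rw [show (2 * g + 1) ^ 2 = 2 * (2 * g * (g + 1)) + 1 by ring]; omega,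
      pow_mul, h2g, one_pow]
  rw [he, map_mul, ht1, mul_one, map_pow]
  rcases quadraticChar_dichotomy hc with e | e <;> rw [e]
  · exact one_pow _
  · exact (odd_two_mul_add_one g).neg_one_pow

theorem sum_quadraticChar_extPoly {c : k} (hc : c ≠ 0) :
    (∑ x : k, quadraticChar k ((extPoly g c).eval x)) =
      quadraticChar k c * (2 * g * (2 * g + 1) : ℕ) := by
  set D := extPoly g c
  have hk := ringChar_ne_two hq
  set Z := Finset.univ.filter fun x : k => D.eval x = 0
  have hS : ∑ x : k, quadraticChar k (D.eval x) =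
      quadraticChar k c * ((Fintype.card k - Z.card : ℕ) : ℤ) := by
    rw [← Finset.sum_filter_add_sum_filter_not _ (fun x => D.eval x = 0),
      Finset.sum_eq_zero (s := Finset.univ.filter fun x => D.eval x = 0) fun x hx => by
        rw [(Finset.mem_filter.mp hx).2, quadraticChar_zero],
      Finset.sum_congr rfl fun x hx => quadraticChar_eval hq hc (Finset.mem_filter.mp hx).2,
      Finset.sum_const, zero_add, nsmul_eq_mul, mul_comm, Finset.filter_not,
      Finset.card_sdiff_of_subset (Finset.filter_subset _ _), Finset.card_univ]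
  have hZ : Z.card ≤ 2 * g + 1 := by
    rw [← natDegree_extPoly hq c]
    refine le_trans (Finset.card_le_card fun x hx => ?_)
      ((Multiset.toFinset_card_le _).trans (card_roots' D))
    exact Multiset.mem_toFinset.mpr
      ((mem_roots (monic_extPoly hq c).ne_zero).mpr (Finset.mem_filter.mp hx).2)
  have hW := abs_sum_quadraticChar_le (f := D) hk (squarefree_extPoly hq hc)
    (by rw [natDegree_extPoly hq c]; omega)
  rw [natDegree_extPoly hq c, Nat.add_sub_cancel, hq, Nat.cast_pow,
    Real.sqrt_sq (Nat.cast_nonneg _), ← Int.cast_sum, hS] at hW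
  have hZ' : (2 * g + 1) ^ 2 - Z.card ≤ 2 * g * (2 * g + 1) := by
    rcases quadraticChar_dichotomy hc with e | e <;> rw [e] at hW <;>
      simp only [one_mul, neg_mul, Int.cast_neg, abs_neg, Int.cast_natCast, Nat.abs_cast] at hW <;>
      exact_mod_cast hq ▸ hW
  rw [hS, hq]
  congr 2
  have : (2 * g + 1) ^ 2 = 2 * g * (2 * g + 1) + (2 * g + 1) := by ring
  omega

/-- **All reciprocal roots are equal.** -/
theorem lRoots_extPoly {c : k} (hc : c ≠ 0) : lRoots (extPoly g c) =
    Multiset.replicate (2 * g) (-(quadraticChar k c : ℂ) * (2 * g + 1 : ℕ)) := by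
  set D := extPoly g c
  have hk := ringChar_ne_two hq
  have hD := monic_extPoly hq c
  have hsq := squarefree_extPoly hq hc
  have hdeg := natDegree_extPoly hq c
  have hcard := card_lRoots hk hD hsq hdeg
  have hpow : powSum D 1 = quadraticChar k c * (2 * g * (2 * g + 1) : ℕ) := by
    rw [← sum_quadraticChar_extPoly hq hc, ← Module.finrank_self k,
      ← sum_quadraticChar_eq_powSum (K := k) hk D]
    simp only [coe_aeval_eq_eval]
    rfl
  have hneg := powSum_eq_neg hk hD hsq (by omega) (le_refl 1)
  simp only [pow_one, Multiset.map_id'] at hneg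
  have he : (quadraticChar k c : ℂ) * quadraticChar k c = 1 := by
    rw [← Int.cast_mul, ← sq, quadraticChar_sq_one hc, Int.cast_one]
  refine Multiset.eq_replicate.mpr ⟨hcard, fun a ha => ?_⟩
  have h := eq_of_norm_eq_of_sum_eq (w := -(quadraticChar k c : ℂ)) (R := ((2 * g + 1 : ℕ) : ℝ))
    (by rcases quadraticChar_dichotomy hc with e | e <;> simp [e])
    (fun b hb => by rw [norm_lRoots_eq hk hD hsq hdeg hb, hq, Nat.cast_pow,
      Real.sqrt_sq (Nat.cast_nonneg _)]) (by
      rw [neg_mul, ← mul_neg, ← hneg, hpow, Int.cast_mul, ← mul_assoc, he, one_mul, hcard,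
        Int.cast_natCast, Complex.natCast_re]
      push_cast; ring) a ha
  rw [Complex.ofReal_natCast] at h
  rw [← h, ← mul_assoc, neg_mul_neg, he, one_mul]

/-- **The coefficients.** -/
theorem coeffL_extPoly {c : k} (hc : c ≠ 0) {n : ℕ} (hn : n ≤ 2 * g) :
    coeffL (extPoly g c) n =
      (2 * g).choose n * (quadraticChar k c * (2 * g + 1 : ℕ)) ^ n := by
  set e : ℤ := quadraticChar k c * (2 * g + 1 : ℕ)
  have h : ∀ z : ℂ, ∑ i ∈ Finset.range (2 * g + 1), (coeffL (extPoly g c) i : ℂ) * z ^ i =
      ∑ i ∈ Finset.range (2 * g + 1), (((2 * g).choose i * e ^ i : ℤ) : ℂ) * z ^ i := fun z => by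
    rw [sum_coeffL_mul_pow (ringChar_ne_two hq) (monic_extPoly hq c) (squarefree_extPoly hq hc)
      (natDegree_extPoly hq c), lRoots_extPoly hq hc, Multiset.map_replicate,
      Multiset.prod_replicate, show 1 - -(quadraticChar k c : ℂ) * (2 * g + 1 : ℕ) * z =
        (e : ℂ) * z + 1 by push_cast [e]; ring, add_pow]
    refine Finset.sum_congr rfl fun i _ => ?_
    push_cast
    ring
  have hP : (∑ i ∈ Finset.range (2 * g + 1), C (coeffL (extPoly g c) i : ℂ) * X ^ i) =
      ∑ i ∈ Finset.range (2 * g + 1), C (((2 * g).choose i * e ^ i : ℤ) : ℂ) * X ^ i :=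
    Polynomial.funext fun z => by simpa [eval_finsetSum] using h z
  have h' := congrArg (fun P : ℂ[X] => P.coeff n) hP
  simp only [finsetSum_coeff, coeff_C_mul_X_pow] at h'
  rw [Finset.sum_ite_eq, Finset.sum_ite_eq, if_pos (Finset.mem_range.mpr (by omega)),
    if_pos (Finset.mem_range.mpr (by omega))] at h'
  exact_mod_cast h'

end FA.ExtremalFF
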